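import Mathlib

/-!
# S16 / THETA-ANALYTIC block: generic theta series of an integer-valued function

`thetaSeries N z = ∑' x, exp (2πi · N x · z)` for an arbitrary function `N : X → ℤ`
(in the application `X = Fin 4 → ℤ` and `N = Q` or `N = Q♯`), and the representation numbers
`repNum N n = #{x | N x = n}`.
-/

namespace Fermat.Agent.S16

open Complex

/-- The theta series `z ↦ ∑' x, exp (2πi · N x · z)` of a function `N : X → ℤ`. -/
noncomputable def thetaSeries {X : Type*} (N : X → ℤ) (z : ℂ) : ℂ :=
  ∑' x : X, Complex.exp (2 * (Real.pi : ℂ) * Complex.I * (N x : ℂ) * z)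

/-- The representation numbers `#{x | N x = n}` (junk value `0` if that set is infinite). -/
noncomputable def repNum {X : Type*} (N : X → ℤ) (n : ℕ) : ℕ :=
  Nat.card {x : X // N x = (n : ℤ)}

end Fermat.Agent.S16
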