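import Mathlib
import Fermat.Agent.S16.ThetaAnalytic.Defs

/-!
# S16 / THETA-ANALYTIC block: analytic properties of the generic theta series

Everything is proved for an arbitrary function `N : X → ℤ` with `0 ≤ N` and
`∀ t > 0, Summable (fun x => Real.exp (-t * N x))`.
-/

namespace Fermat.Agent.S16

open Complex UpperHalfPlane
open scoped Manifold

/-- norm of a single term of the theta series. -/
theorem thetaTerm_norm (n : ℤ) (z : ℂ) :
    ‖Complex.exp (2 * (Real.pi : ℂ) * Complex.I * (n : ℂ) * z)‖ =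
      Real.exp (-(2 * Real.pi * z.im) * (n : ℝ)) := by
  rw [Complex.norm_exp]
  congr 1
  have h : (2 * (Real.pi : ℂ) * Complex.I * (n : ℂ) * z) =
      (((2 * Real.pi * (n : ℝ) : ℝ) : ℂ) * z) * Complex.I := by
    push_cast; ring
  rw [h, Complex.mul_I_re, Complex.im_ofReal_mul]
  ring

/-- `Θ(z+1) = Θ(z)` (no hypotheses). -/
theorem thetaSeries_add_one {X : Type*} (N : X → ℤ) (z : ℂ) :
    thetaSeries N (z + 1) = thetaSeries N z := by
  unfold thetaSeries
  congr 1
  funext x
  have h : 2 * (Real.pi : ℂ) * Complex.I * (N x : ℂ) * (z + 1) =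
      2 * (Real.pi : ℂ) * Complex.I * (N x : ℂ) * z + (N x : ℂ) * (2 * Real.pi * Complex.I) := by
    ring
  rw [h, Complex.exp_add, Complex.exp_int_mul_two_pi_mul_I, mul_one]

/-- bridge: complex summability on `ℍ` gives the real summability hypothesis used below. -/
theorem thetaSeries_summable_real_of_complex {X : Type*} (N : X → ℤ)
    (hs : ∀ τ : ℍ, Summable (fun x : X => Complex.exp (2 * (Real.pi : ℂ) * Complex.I * (N x : ℂ) * (τ : ℂ)))) :
    ∀ t : ℝ, 0 < t → Summable (fun x : X => Real.exp (-t * (N x : ℝ))) := by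
  intro t ht
  have hpos : 0 < ((t / (2 * Real.pi) : ℝ) * Complex.I : ℂ).im := by
    simp only [Complex.mul_I_im, Complex.ofReal_re]
    positivity
  have h := (hs ⟨_, hpos⟩).norm
  refine h.congr (fun x => ?_)
  rw [UpperHalfPlane.coe_mk, thetaTerm_norm]
  congr 1
  simp only [Complex.mul_I_im, Complex.ofReal_re]
  have : (2 * Real.pi) ≠ 0 := by positivity
  field_simp

/-- summability of the theta series on the upper half plane. -/
theorem thetaSeries_summable {X : Type*} (N : X → ℤ)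
    (hs : ∀ t : ℝ, 0 < t → Summable (fun x : X => Real.exp (-t * (N x : ℝ))))
    {z : ℂ} (hz : 0 < z.im) :
    Summable (fun x : X => Complex.exp (2 * (Real.pi : ℂ) * Complex.I * (N x : ℂ) * z)) := by
  refine Summable.of_norm ?_
  refine (hs (2 * Real.pi * z.im) (by positivity)).congr (fun x => ?_)
  rw [thetaTerm_norm]

/-- fibres are finite. -/
theorem thetaSeries_fiber_finite {X : Type*} (N : X → ℤ)
    (hs : ∀ t : ℝ, 0 < t → Summable (fun x : X => Real.exp (-t * (N x : ℝ)))) (n : ℤ) :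
    Finite {x : X // N x = n} := by
  by_contra hinf
  rw [not_finite_iff_infinite] at hinf
  have h1 := (hs 1 one_pos).subtype {x : X | N x = n}
  have h2 : Summable (fun _ : {x : X // N x = n} => Real.exp (-1 * (n : ℝ))) := by
    refine h1.congr (fun x => ?_)
    simp only [Function.comp_apply]
    rw [show N (x : X) = n from x.2]
  rw [summable_const_iff] at h2
  exact (Real.exp_pos _).ne' h2

/-- `q`-expansion: `Θ(τ) = ∑ r(n) qⁿ`. -/
theorem thetaSeries_hasSum_qExpansion {X : Type*} (N : X → ℤ) (hN : ∀ x, 0 ≤ N x)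
    (hs : ∀ t : ℝ, 0 < t → Summable (fun x : X => Real.exp (-t * (N x : ℝ)))) (τ : ℍ) :
    HasSum (fun n : ℕ => (repNum N n : ℂ) • Function.Periodic.qParam (1 : ℝ) (τ : ℂ) ^ n)
      (thetaSeries N (τ : ℂ)) := by
  have hH : HasSum (fun x : X => Complex.exp (2 * (Real.pi : ℂ) * Complex.I * (N x : ℂ) * (τ : ℂ)))
      (thetaSeries N (τ : ℂ)) := (thetaSeries_summable N hs τ.im_pos).hasSum
  have h2 := (Equiv.sigmaFiberEquiv (fun x : X => (N x).toNat)).hasSum_iff.mpr hH
  refine h2.sigma (fun n => ?_)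
  have efib : {x : X // (N x).toNat = n} ≃ {x : X // N x = (n : ℤ)} :=
    Equiv.subtypeEquivRight (fun x => by have := hN x; omega)
  have hfin : Finite {x : X // (N x).toNat = n} := by
    have := thetaSeries_fiber_finite N hs (n : ℤ)
    exact Finite.of_equiv _ efib.symm
  letI := Fintype.ofFinite {x : X // (N x).toNat = n}
  have hterm : ∀ c : {x : X // (N x).toNat = n},
      ((fun x : X => Complex.exp (2 * (Real.pi : ℂ) * Complex.I * (N x : ℂ) * (τ : ℂ))) ∘
        (Equiv.sigmaFiberEquiv (fun x : X => (N x).toNat))) ⟨n, c⟩ =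
        Function.Periodic.qParam (1 : ℝ) (τ : ℂ) ^ n := by
    intro c
    have hc : N (c : X) = (n : ℤ) := by
      have := hN c
      have := c.2
      omega
    simp only [Function.comp_apply, Equiv.sigmaFiberEquiv, Equiv.coe_fn_mk]
    rw [hc, Function.Periodic.qParam, ← Complex.exp_nat_mul]
    congr 1
    push_cast
    ring
  simp_rw [hterm]
  have hcard : (repNum N n : ℂ) = (Fintype.card {x : X // (N x).toNat = n} : ℂ) := by
    congr 1
    rw [repNum, ← Nat.card_eq_fintype_card]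
    exact Nat.card_congr efib.symm
  rw [hcard]
  have := hasSum_fintype (fun _ : {x : X // (N x).toNat = n} =>
    Function.Periodic.qParam (1 : ℝ) (τ : ℂ) ^ n)
  simpa using this

/-- differentiability on a half plane `Im z > c`. -/
theorem thetaSeries_differentiableOn_aux {X : Type*} (N : X → ℤ) (hN : ∀ x, 0 ≤ N x)
    (hs : ∀ t : ℝ, 0 < t → Summable (fun x : X => Real.exp (-t * (N x : ℝ))))
    {c : ℝ} (hc : 0 < c) :
    DifferentiableOn ℂ (thetaSeries N) {z : ℂ | c < z.im} := by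
  have hopen : IsOpen {z : ℂ | c < z.im} := isOpen_lt continuous_const Complex.continuous_im
  refine differentiableOn_tsum_of_summable_norm (hs (2 * Real.pi * c) (by positivity))
    (fun x => ?_) hopen (fun x w hw => ?_)
  · exact (Complex.differentiable_exp.comp
      ((differentiable_const _).mul differentiable_id)).differentiableOn
  · rw [thetaTerm_norm]
    apply Real.exp_le_exp.mpr
    have h1 : (0 : ℝ) ≤ (N x : ℝ) := by exact_mod_cast hN x
    have h2 : c ≤ w.im := le_of_lt hw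
    have h3 : 2 * Real.pi * c ≤ 2 * Real.pi * w.im :=
      mul_le_mul_of_nonneg_left h2 (by positivity)
    nlinarith [mul_le_mul_of_nonneg_right h3 h1]

/-- holomorphy on the open upper half plane (complex-variable form). -/
theorem thetaSeries_differentiableOn {X : Type*} (N : X → ℤ) (hN : ∀ x, 0 ≤ N x)
    (hs : ∀ t : ℝ, 0 < t → Summable (fun x : X => Real.exp (-t * (N x : ℝ)))) :
    DifferentiableOn ℂ (thetaSeries N) {z : ℂ | 0 < z.im} := by
  intro z hz
  have hz' : (0 : ℝ) < z.im := hz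
  have hopen : IsOpen {w : ℂ | z.im / 2 < w.im} :=
    isOpen_lt continuous_const Complex.continuous_im
  have hmem : z ∈ {w : ℂ | z.im / 2 < w.im} := by
    show z.im / 2 < z.im
    linarith
  exact ((thetaSeries_differentiableOn_aux N hN hs (half_pos hz')).differentiableAt
    (hopen.mem_nhds hmem)).differentiableWithinAt

/-- holomorphy on `ℍ` (manifold form). -/
theorem thetaSeries_mdifferentiable {X : Type*} (N : X → ℤ) (hN : ∀ x, 0 ≤ N x)
    (hs : ∀ t : ℝ, 0 < t → Summable (fun x : X => Real.exp (-t * (N x : ℝ)))) :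
    MDifferentiable 𝓘(ℂ) 𝓘(ℂ) (fun τ : ℍ => thetaSeries N (τ : ℂ)) := by
  rw [UpperHalfPlane.mdifferentiable_iff]
  refine (thetaSeries_differentiableOn N hN hs).congr (fun z hz => ?_)
  have hz' : (0 : ℝ) < z.im := hz
  simp only [Function.comp_apply]
  rw [UpperHalfPlane.ofComplex_apply_of_im_pos hz']

/-- uniform bound on half planes `Im z ≥ c`. -/
theorem thetaSeries_norm_le {X : Type*} (N : X → ℤ) (hN : ∀ x, 0 ≤ N x)
    (hs : ∀ t : ℝ, 0 < t → Summable (fun x : X => Real.exp (-t * (N x : ℝ))))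
    {c : ℝ} (hc : 0 < c) :
    ∃ M : ℝ, ∀ z : ℂ, c ≤ z.im → ‖thetaSeries N z‖ ≤ M := by
  refine ⟨∑' x : X, Real.exp (-(2 * Real.pi * c) * (N x : ℝ)), fun z hz => ?_⟩
  have hzpos : 0 < z.im := lt_of_lt_of_le hc hz
  have hsz := thetaSeries_summable N hs hzpos
  have hle : ∀ x : X, ‖Complex.exp (2 * (Real.pi : ℂ) * Complex.I * (N x : ℂ) * z)‖ ≤
      Real.exp (-(2 * Real.pi * c) * (N x : ℝ)) := by
    intro x
    rw [thetaTerm_norm]
    apply Real.exp_le_exp.mpr
    have h1 : (0 : ℝ) ≤ (N x : ℝ) := by exact_mod_cast hN x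
    have h3 : 2 * Real.pi * c ≤ 2 * Real.pi * z.im :=
      mul_le_mul_of_nonneg_left hz (by positivity)
    nlinarith [mul_le_mul_of_nonneg_right h3 h1]
  calc ‖thetaSeries N z‖ ≤ ∑' x : X, ‖Complex.exp (2 * (Real.pi : ℂ) * Complex.I * (N x : ℂ) * z)‖ :=
        norm_tsum_le_tsum_norm hsz.norm
    _ ≤ ∑' x : X, Real.exp (-(2 * Real.pi * c) * (N x : ℝ)) :=
        hsz.norm.tsum_le_tsum hle (hs (2 * Real.pi * c) (by positivity))

/-- boundedness at `i∞` of `τ ↦ Θ(c τ)` for real `c > 0` (use `c = 1` for `Θ`, `c = 1/p` for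
`z ↦ ∑_y e(Q♯(y) z / p)`). -/
theorem thetaSeries_isBoundedAtImInfty_mul {X : Type*} (N : X → ℤ) (hN : ∀ x, 0 ≤ N x)
    (hs : ∀ t : ℝ, 0 < t → Summable (fun x : X => Real.exp (-t * (N x : ℝ))))
    {c : ℝ} (hc : 0 < c) :
    IsBoundedAtImInfty (fun τ : ℍ => thetaSeries N ((c : ℂ) * (τ : ℂ))) := by
  rw [UpperHalfPlane.isBoundedAtImInfty_iff]
  obtain ⟨M, hM⟩ := thetaSeries_norm_le N hN hs hc
  refine ⟨M, 1, fun z hz => hM _ ?_⟩
  rw [Complex.im_ofReal_mul]
  have : (1 : ℝ) ≤ (z : ℂ).im := hz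
  nlinarith

theorem thetaSeries_isBoundedAtImInfty {X : Type*} (N : X → ℤ) (hN : ∀ x, 0 ≤ N x)
    (hs : ∀ t : ℝ, 0 < t → Summable (fun x : X => Real.exp (-t * (N x : ℝ)))) :
    IsBoundedAtImInfty (fun τ : ℍ => thetaSeries N (τ : ℂ)) := by
  have h := thetaSeries_isBoundedAtImInfty_mul N hN hs one_pos
  simpa using h

theorem thetaSeries_isBoundedAtImInfty_div {X : Type*} (N : X → ℤ) (hN : ∀ x, 0 ≤ N x)
    (hs : ∀ t : ℝ, 0 < t → Summable (fun x : X => Real.exp (-t * (N x : ℝ))))
    {p : ℕ} (hp : 0 < p) :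
    IsBoundedAtImInfty (fun τ : ℍ => thetaSeries N ((τ : ℂ) / (p : ℂ))) := by
  have hp' : (0 : ℝ) < (p : ℝ)⁻¹ := by positivity
  have h := thetaSeries_isBoundedAtImInfty_mul N hN hs hp'
  have he : (fun τ : ℍ => thetaSeries N ((τ : ℂ) / (p : ℂ))) =
      (fun τ : ℍ => thetaSeries N ((((p : ℝ)⁻¹ : ℝ) : ℂ) * (τ : ℂ))) := by
    funext τ
    congr 1
    push_cast
    rw [div_eq_mul_inv, mul_comm]
  rw [he]
  exact h

/-- `r(0) = 1` if `N` vanishes only at one point. -/
theorem repNum_zero {X : Type*} (N : X → ℤ) (x₀ : X) (h0 : ∀ x, N x = 0 ↔ x = x₀) :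
    repNum N 0 = 1 := by
  rw [repNum]
  have e : {x : X // N x = ((0 : ℕ) : ℤ)} ≃ {x : X // x = x₀} :=
    Equiv.subtypeEquivRight (fun x => by simpa using h0 x)
  rw [Nat.card_congr e]
  simp

/-- `r(n)` is even for `n ≥ 1` if `N` is invariant under an involution whose fixed points
all have `N = 0` (for `X = Fin 4 → ℤ`: `σ = Neg.neg`). -/
theorem repNum_even {X : Type*} (N : X → ℤ) (σ : X → X) (hσ : ∀ x, σ (σ x) = x)
    (hNσ : ∀ x, N (σ x) = N x) (hfix : ∀ x, σ x = x → N x = 0) {n : ℕ} (hn : 1 ≤ n) :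
    Even (repNum N n) := by
  rw [repNum]
  rcases finite_or_infinite {x : X // N x = (n : ℤ)} with hfin | hinf
  · letI := Fintype.ofFinite {x : X // N x = (n : ℤ)}
    rw [Nat.card_eq_fintype_card]
    let g : {x : X // N x = (n : ℤ)} → {x : X // N x = (n : ℤ)} :=
      fun x => ⟨σ x, by rw [hNσ]; exact x.2⟩
    have hsum : ∑ _x : {x : X // N x = (n : ℤ)}, (1 : ZMod 2) = 0 := by
      refine Finset.sum_involution (fun a _ => g a) ?_ ?_ ?_ ?_
      · intro a _
        decide
      · intro a _ _ hga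
        have h1 : σ (a : X) = a := congrArg Subtype.val hga
        have h2 := hfix _ h1
        have h3 := a.2
        omega
      · intro a _
        exact Finset.mem_univ _
      · intro a _
        exact Subtype.ext (hσ _)
    rw [Finset.sum_const, Finset.card_univ, nsmul_eq_mul, mul_one] at hsum
    rw [even_iff_two_dvd]
    exact (ZMod.natCast_eq_zero_iff _ _).mp hsum
  · rw [Nat.card_eq_zero_of_infinite]
    exact Even.zero

end Fermat.Agent.S16
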