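import Mathlib
import Fermat.Agent.S16.HeckeTrick.Defs
import Fermat.Agent.S16.ThetaAnalytic.Main

/-!
# S16 / THETA-ANALYTIC: bridge to the frozen TH definitions (`TH.quad`, `TH.theta`, `TH.InvStatement`)
-/

namespace Fermat.Agent.S16

open Complex UpperHalfPlane Matrix

/-- `Q_A(x) = N x` for integer vectors, if `2 N x = xᵀ A x`. -/
theorem quad_eq_intCast (A : Matrix (Fin 4) (Fin 4) ℤ) (N : (Fin 4 → ℤ) → ℤ)
    (hNA : ∀ x, 2 * N x = x ⬝ᵥ A *ᵥ x) (x : Fin 4 → ℤ) :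
    TH.quad A (fun i => (x i : ℝ)) = (N x : ℝ) := by
  have h := congrArg (Int.cast : ℤ → ℝ) (hNA x)
  simp only [dotProduct, Matrix.mulVec, Finset.mul_sum] at h
  push_cast at h
  have h2 : (∑ i, ∑ j, (A i j : ℝ) * (x i : ℝ) * (x j : ℝ)) = 2 * (N x : ℝ) := by
    rw [h]
    refine Finset.sum_congr rfl (fun i _ => Finset.sum_congr rfl (fun j _ => ?_))
    ring
  unfold TH.quad
  rw [h2]
  ring

theorem theta_eq_thetaSeries (A : Matrix (Fin 4) (Fin 4) ℤ) (N : (Fin 4 → ℤ) → ℤ)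
    (hNA : ∀ x, 2 * N x = x ⬝ᵥ A *ᵥ x) (z : ℍ) :
    TH.theta A z = thetaSeries N (z : ℂ) := by
  rw [TH.theta, thetaSeries]
  refine tsum_congr (fun x => ?_)
  rw [quad_eq_intCast A N hNA x]
  push_cast
  rfl

theorem theta_hasSum (A : Matrix (Fin 4) (Fin 4) ℤ) (N : (Fin 4 → ℤ) → ℤ)
    (hNA : ∀ x, 2 * N x = x ⬝ᵥ A *ᵥ x) (hN : ∀ x, 0 ≤ N x)
    (hs : ∀ t : ℝ, 0 < t → Summable (fun x : Fin 4 → ℤ => Real.exp (-t * (N x : ℝ)))) (z : ℍ) :
    HasSum (fun n : ℕ => (repNum N n : ℂ) * Complex.exp (2 * Real.pi * Complex.I * n * z))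
      (TH.theta A z) := by
  rw [theta_eq_thetaSeries A N hNA z]
  have h := thetaSeries_hasSum_qExpansion N hN hs z
  convert h using 2 with n
  rw [smul_eq_mul, Function.Periodic.qParam, ← Complex.exp_nat_mul]
  congr 2
  push_cast
  ring

theorem summable_exp_of_inv (p : ℕ) (A A' : Matrix (Fin 4) (Fin 4) ℤ) (N : (Fin 4 → ℤ) → ℤ)
    (hNA : ∀ x, 2 * N x = x ⬝ᵥ A *ᵥ x) (hInv : TH.InvStatement p A A') :
    ∀ t : ℝ, 0 < t → Summable (fun x : Fin 4 → ℤ => Real.exp (-t * (N x : ℝ))) := by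
  intro t ht
  have hpos : 0 < ((t / (2 * Real.pi) : ℝ) * Complex.I : ℂ).im := by
    simp only [Complex.mul_I_im, Complex.ofReal_re]
    positivity
  obtain ⟨h1, -, -⟩ := hInv (fun _ => 0) _ hpos
  refine h1.norm.congr (fun x => ?_)
  have hq : TH.quad A (fun i => (x i : ℝ) + (fun _ => (0 : ℝ)) i) = (N x : ℝ) := by
    simpa using quad_eq_intCast A N hNA x
  rw [hq]
  have hc : (((N x : ℝ)) : ℂ) = ((N x : ℤ) : ℂ) := by push_cast; rfl
  rw [hc, thetaTerm_norm]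
  congr 1
  simp only [Complex.mul_I_im, Complex.ofReal_re]
  have : (2 * Real.pi) ≠ 0 := by positivity
  field_simp

end Fermat.Agent.S16
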