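import Mathlib
import Fermat.Agent.S16.HeckeTrick.Defs
import Fermat.Agent.S16.ThetaAnalytic.Bridge

/-!
# S16 / THETA-ANALYTIC: the integral half-form `N x = ½ xᵀ A x` of an even symmetric positive
definite matrix, its representation numbers, summability from positive definiteness, and the
packaged `q`-expansion of `TH.theta A`.
-/

namespace Fermat.Agent.S16

open Complex UpperHalfPlane Matrix

/-- `xᵀ A x` is even for a symmetric matrix with even diagonal. -/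
theorem even_quadForm (A : Matrix (Fin 4) (Fin 4) ℤ) (hA : A.IsSymm) (hev : ∀ i, Even (A i i))
    (x : Fin 4 → ℤ) : Even (x ⬝ᵥ A *ᵥ x) := by
  obtain ⟨k0, h0⟩ := hev 0
  obtain ⟨k1, h1⟩ := hev 1
  obtain ⟨k2, h2⟩ := hev 2
  obtain ⟨k3, h3⟩ := hev 3
  have s10 : A 1 0 = A 0 1 := hA.apply 0 1
  have s20 : A 2 0 = A 0 2 := hA.apply 0 2
  have s30 : A 3 0 = A 0 3 := hA.apply 0 3
  have s21 : A 2 1 = A 1 2 := hA.apply 1 2
  have s31 : A 3 1 = A 1 3 := hA.apply 1 3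
  have s32 : A 3 2 = A 2 3 := hA.apply 2 3
  refine ⟨k0 * x 0 ^ 2 + k1 * x 1 ^ 2 + k2 * x 2 ^ 2 + k3 * x 3 ^ 2 + A 0 1 * x 0 * x 1
    + A 0 2 * x 0 * x 2 + A 0 3 * x 0 * x 3 + A 1 2 * x 1 * x 2 + A 1 3 * x 1 * x 3
    + A 2 3 * x 2 * x 3, ?_⟩
  simp only [dotProduct, Matrix.mulVec, Fin.sum_univ_four]
  rw [s10, s20, s30, s21, s31, s32, h0, h1, h2, h3]
  ring

/-- existence of the integral half-form `N` with `2 N x = xᵀ A x`. -/
theorem exists_halfForm (A : Matrix (Fin 4) (Fin 4) ℤ) (hA : A.IsSymm)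
    (hev : ∀ i, Even (A i i)) :
    ∃ N : (Fin 4 → ℤ) → ℤ, ∀ x, 2 * N x = x ⬝ᵥ A *ᵥ x :=
  ⟨fun x => (x ⬝ᵥ A *ᵥ x) / 2,
    fun x => Int.mul_ediv_cancel' (even_iff_two_dvd.mp (even_quadForm A hA hev x))⟩

theorem halfForm_real (A : Matrix (Fin 4) (Fin 4) ℤ) (N : (Fin 4 → ℤ) → ℤ)
    (hNA : ∀ x, 2 * N x = x ⬝ᵥ A *ᵥ x) (x : Fin 4 → ℤ) :
    2 * (N x : ℝ) = (fun i => (x i : ℝ)) ⬝ᵥ (A.map (Int.cast : ℤ → ℝ)) *ᵥ (fun i => (x i : ℝ)) := by
  have h := congrArg (Int.cast : ℤ → ℝ) (hNA x)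
  simp only [dotProduct, Matrix.mulVec] at h ⊢
  push_cast at h
  simpa [Matrix.map_apply] using h

theorem halfForm_zero (A : Matrix (Fin 4) (Fin 4) ℤ) (N : (Fin 4 → ℤ) → ℤ)
    (hNA : ∀ x, 2 * N x = x ⬝ᵥ A *ᵥ x) : N 0 = 0 := by
  have h := hNA 0
  simp only [Matrix.mulVec_zero, dotProduct_zero] at h
  omega

theorem halfForm_pos (A : Matrix (Fin 4) (Fin 4) ℤ)
    (hpos : (A.map (Int.cast : ℤ → ℝ)).PosDef) (N : (Fin 4 → ℤ) → ℤ)
    (hNA : ∀ x, 2 * N x = x ⬝ᵥ A *ᵥ x) (x : Fin 4 → ℤ) (hx : x ≠ 0) : 0 < N x := by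
  have hxR : (fun i => (x i : ℝ)) ≠ 0 := by
    intro h
    apply hx
    funext i
    have := congrFun h i
    simpa using this
  have h := hpos.dotProduct_mulVec_pos hxR
  rw [star_trivial, ← halfForm_real A N hNA x] at h
  have : (0 : ℝ) < (N x : ℝ) := by linarith
  exact_mod_cast this

theorem halfForm_nonneg (A : Matrix (Fin 4) (Fin 4) ℤ)
    (hpos : (A.map (Int.cast : ℤ → ℝ)).PosDef) (N : (Fin 4 → ℤ) → ℤ)
    (hNA : ∀ x, 2 * N x = x ⬝ᵥ A *ᵥ x) (x : Fin 4 → ℤ) : 0 ≤ N x := by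
  rcases eq_or_ne x 0 with rfl | hx
  · rw [halfForm_zero A N hNA]
  · exact (halfForm_pos A hpos N hNA x hx).le

theorem halfForm_eq_zero_iff (A : Matrix (Fin 4) (Fin 4) ℤ)
    (hpos : (A.map (Int.cast : ℤ → ℝ)).PosDef) (N : (Fin 4 → ℤ) → ℤ)
    (hNA : ∀ x, 2 * N x = x ⬝ᵥ A *ᵥ x) (x : Fin 4 → ℤ) : N x = 0 ↔ x = 0 := by
  constructor
  · intro h
    by_contra hx
    exact (halfForm_pos A hpos N hNA x hx).ne' h
  · rintro rfl
    exact halfForm_zero A N hNA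

theorem halfForm_neg (A : Matrix (Fin 4) (Fin 4) ℤ) (N : (Fin 4 → ℤ) → ℤ)
    (hNA : ∀ x, 2 * N x = x ⬝ᵥ A *ᵥ x) (x : Fin 4 → ℤ) : N (-x) = N x := by
  have h1 := hNA (-x)
  have h2 := hNA x
  rw [Matrix.mulVec_neg, neg_dotProduct, dotProduct_neg, neg_neg] at h1
  omega

/-- `r(0) = 1`. -/
theorem repNum_zero_of_posDef (A : Matrix (Fin 4) (Fin 4) ℤ)
    (hpos : (A.map (Int.cast : ℤ → ℝ)).PosDef) (N : (Fin 4 → ℤ) → ℤ)
    (hNA : ∀ x, 2 * N x = x ⬝ᵥ A *ᵥ x) : repNum N 0 = 1 :=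
  repNum_zero N 0 (halfForm_eq_zero_iff A hpos N hNA)

/-- `r(n)` is even for `n ≥ 1`. -/
theorem repNum_even_of_halfForm (A : Matrix (Fin 4) (Fin 4) ℤ) (N : (Fin 4 → ℤ) → ℤ)
    (hNA : ∀ x, 2 * N x = x ⬝ᵥ A *ᵥ x) {n : ℕ} (hn : 1 ≤ n) : Even (repNum N n) := by
  refine repNum_even N (fun x => -x) (fun x => neg_neg x) (halfForm_neg A N hNA) ?_ hn
  intro x hx
  have hx0 : x = 0 := by
    funext i
    have := congrFun hx i
    simp only [Pi.neg_apply, Pi.zero_apply] at this ⊢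
    omega
  rw [hx0]
  exact halfForm_zero A N hNA

/-- one-dimensional geometric bound. -/
theorem summable_exp_neg_mul_abs {b : ℝ} (hb : 0 < b) :
    Summable (fun m : ℤ => Real.exp (-b * |(m : ℝ)|)) := by
  have h : Summable (fun n : ℕ => Real.exp (-b * |((n : ℤ) : ℝ)|)) := by
    have := Real.summable_exp_nat_mul_iff.mpr (neg_lt_zero.mpr hb)
    refine this.congr (fun n => ?_)
    congr 1
    rw [Int.cast_natCast, abs_of_nonneg (Nat.cast_nonneg n)]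
    ring
  refine Summable.of_nat_of_neg h ?_
  refine h.congr (fun n => ?_)
  congr 2
  push_cast
  rw [abs_neg]

/-- product summability over `Fin n → ℤ`. -/
theorem summable_pi_prod (g : ℤ → ℝ) (hg : Summable g) (hg0 : ∀ m, 0 ≤ g m) :
    ∀ n : ℕ, Summable (fun x : Fin n → ℤ => ∏ i, g (x i))
  | 0 => Summable.of_finite
  | n + 1 => by
      have ih := summable_pi_prod g hg hg0 n
      have h := hg.mul_of_nonneg ih hg0 (fun x => Finset.prod_nonneg (fun i _ => hg0 _))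
      have h2 := (Fin.consEquiv (fun _ : Fin (n + 1) => ℤ)).symm.summable_iff.mpr h
      refine h2.congr (fun x => ?_)
      simp only [Function.comp_apply, Fin.consEquiv_symm_apply, Fin.prod_univ_succ]
      rfl

/-- coercivity of a positive definite real matrix (sup norm). -/
theorem posDef_coercive (M : Matrix (Fin 4) (Fin 4) ℝ) (hM : M.PosDef) :
    ∃ c : ℝ, 0 < c ∧ ∀ v : Fin 4 → ℝ, c * ‖v‖ ^ 2 ≤ v ⬝ᵥ M *ᵥ v := by
  have hcpt : IsCompact (Metric.sphere (0 : Fin 4 → ℝ) 1) := isCompact_sphere 0 1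
  have hne : (Metric.sphere (0 : Fin 4 → ℝ) 1).Nonempty :=
    NormedSpace.sphere_nonempty.mpr zero_le_one
  have hcont : Continuous (fun v : Fin 4 → ℝ => v ⬝ᵥ M *ᵥ v) := by
    simp only [dotProduct, Matrix.mulVec]
    fun_prop
  obtain ⟨v₀, hv₀, hmin⟩ := hcpt.exists_isMinOn hne hcont.continuousOn
  have hv₀' : ‖v₀‖ = 1 := by simpa using hv₀
  have hv₀ne : v₀ ≠ 0 := by
    rintro rfl
    simp at hv₀'
  refine ⟨v₀ ⬝ᵥ M *ᵥ v₀, ?_, fun v => ?_⟩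
  · simpa using hM.dotProduct_mulVec_pos hv₀ne
  · rcases eq_or_ne v 0 with rfl | hv
    · simp
    · have hnorm : 0 < ‖v‖ := norm_pos_iff.mpr hv
      have hu : ‖v‖⁻¹ • v ∈ Metric.sphere (0 : Fin 4 → ℝ) 1 := by
        simp [norm_smul, hnorm.ne']
      have h1 := isMinOn_iff.mp hmin _ hu
      have h2 : (‖v‖⁻¹ • v) ⬝ᵥ M *ᵥ (‖v‖⁻¹ • v) = ‖v‖⁻¹ ^ 2 * (v ⬝ᵥ M *ᵥ v) := by
        rw [Matrix.mulVec_smul, smul_dotProduct, dotProduct_smul, smul_eq_mul, smul_eq_mul]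
        ring
      rw [h2] at h1
      have h3 : ‖v‖ ^ 2 * (‖v‖⁻¹ ^ 2 * (v ⬝ᵥ M *ᵥ v)) = v ⬝ᵥ M *ᵥ v := by
        field_simp
      calc v₀ ⬝ᵥ M *ᵥ v₀ * ‖v‖ ^ 2 = ‖v‖ ^ 2 * (v₀ ⬝ᵥ M *ᵥ v₀) := by ring
        _ ≤ ‖v‖ ^ 2 * (‖v‖⁻¹ ^ 2 * (v ⬝ᵥ M *ᵥ v)) :=
            mul_le_mul_of_nonneg_left h1 (by positivity)
        _ = v ⬝ᵥ M *ᵥ v := h3

/-- summability of `exp (-t N x)` directly from positive definiteness. -/
theorem summable_exp_of_posDef (A : Matrix (Fin 4) (Fin 4) ℤ)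
    (hpos : (A.map (Int.cast : ℤ → ℝ)).PosDef) (N : (Fin 4 → ℤ) → ℤ)
    (hNA : ∀ x, 2 * N x = x ⬝ᵥ A *ᵥ x) :
    ∀ t : ℝ, 0 < t → Summable (fun x : Fin 4 → ℤ => Real.exp (-t * (N x : ℝ))) := by
  intro t ht
  obtain ⟨c, hc, hcoer⟩ := posDef_coercive _ hpos
  have hb : 0 < t * c / 8 := by positivity
  have h1 := summable_pi_prod (fun m : ℤ => Real.exp (-(t * c / 8) * |(m : ℝ)|))
    (summable_exp_neg_mul_abs hb) (fun m => (Real.exp_pos _).le) 4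
  refine Summable.of_nonneg_of_le (fun x => (Real.exp_pos _).le) (fun x => ?_) h1
  rw [← Real.exp_sum]
  apply Real.exp_le_exp.mpr
  have hreal := halfForm_real A N hNA x
  have hco := hcoer (fun i => (x i : ℝ))
  rw [← hreal] at hco
  have hnorm : ∀ i, |(x i : ℝ)| ≤ ‖(fun i => (x i : ℝ))‖ ^ 2 := by
    intro i
    have h1 : ‖(x i : ℝ)‖ ≤ ‖fun i => (x i : ℝ)‖ := norm_le_pi_norm (fun i => (x i : ℝ)) i
    rw [Real.norm_eq_abs] at h1
    have h2 : |(x i : ℝ)| ≤ |(x i : ℝ)| ^ 2 := by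
      have hZ : |x i| ≤ |x i| ^ 2 := by
        rcases eq_or_ne (x i) 0 with h0 | h0
        · simp [h0]
        · have := Int.one_le_abs h0
          nlinarith
      have : ((|x i| : ℤ) : ℝ) ≤ ((|x i| ^ 2 : ℤ) : ℝ) := by exact_mod_cast hZ
      simpa using this
    have h3 : |(x i : ℝ)| ^ 2 ≤ ‖fun i => (x i : ℝ)‖ ^ 2 :=
      pow_le_pow_left₀ (abs_nonneg _) h1 2
    linarith
  have hsum : ∑ i : Fin 4, |(x i : ℝ)| ≤ 4 * ‖(fun i => (x i : ℝ))‖ ^ 2 := by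
    calc ∑ i : Fin 4, |(x i : ℝ)| ≤ ∑ _i : Fin 4, ‖(fun i => (x i : ℝ))‖ ^ 2 :=
          Finset.sum_le_sum (fun i _ => hnorm i)
      _ = 4 * ‖(fun i => (x i : ℝ))‖ ^ 2 := by simp
  rw [← Finset.mul_sum]
  have hbn : 0 ≤ t * c / 8 := hb.le
  nlinarith [mul_le_mul_of_nonneg_left hsum hbn, mul_le_mul_of_nonneg_left hco ht.le]

/-- **Package** for the final glue: for an even symmetric positive definite `A`, the theta series
`TH.theta A` has a `q`-expansion `∑ r(n) qⁿ` with `r(0) = 1` and `r(n)` even for `n ≥ 1`. -/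
theorem theta_package (A : Matrix (Fin 4) (Fin 4) ℤ) (hA : A.IsSymm) (hev : ∀ i, Even (A i i))
    (hpos : (A.map (Int.cast : ℤ → ℝ)).PosDef) :
    ∃ r : ℕ → ℕ, r 0 = 1 ∧ (∀ n, 1 ≤ n → Even (r n)) ∧
      ∀ z : ℍ, HasSum (fun n : ℕ => (r n : ℂ) * Complex.exp (2 * Real.pi * Complex.I * n * z))
        (TH.theta A z) := by
  obtain ⟨N, hNA⟩ := exists_halfForm A hA hev
  exact ⟨repNum N, repNum_zero_of_posDef A hpos N hNA,
    fun n hn => repNum_even_of_halfForm A N hNA hn,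
    fun z => theta_hasSum A N hNA (halfForm_nonneg A hpos N hNA)
      (summable_exp_of_posDef A hpos N hNA) z⟩

end Fermat.Agent.S16
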